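import Fermat.Agent.S56.W2.EC.Sh.H1
import Fermat.Agent.F4.Shapiro.Core
import Fermat.Agent.F4.Formation
import Fermat.Agent.F4.Duality
import Fermat.Agent.F4.Pairing

section MergeWrap_S56_W2_EC_Sh_Coord -- from S56/W2/EC/Sh/Coord.lean

/-!
# S56 / W2 / EC / Sh / Coord : coordinates on a module coinduced from an open subgroup (helper48)

`U ≤ G` open for the level structure `𝓤`, `X` a smooth `k[U]`-module, `M = coInd U.subtype 𝓤 X`.
With the section `s = shSec U` of `G → G ⧸ U` (`F4/Shapiro/Core.lean`):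

* `ecShPi x : M →ₗ X`, `φ ↦ φ (s x)⁻¹`, the coordinate at the coset `x`;
* `ecShPi_ρ` : `π_x (g φ) = w(x, g) • π_{g⁻¹ x} φ`, `w = shW U`;
* `ecShLift` : the element with given coordinates; `ecShCoord : M ≃ₗ (G ⧸ U → X)`.
-/

set_option autoImplicit false

open CategoryTheory groupCohomology

namespace Fermat.Agent.F4

variable {k G : Type} [CommRing k] [Group G]

section Coord

variable (𝓤 : Levels G) (U : Subgroup G) (X : Rep.{0} k ↥U)

lemma ecShU_mem (g : G) : g * shSec U ((g⁻¹ : G) : G ⧸ U) ∈ U := by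
  have h := mk_shSec U ((g⁻¹ : G) : G ⧸ U)
  rw [QuotientGroup.eq] at h
  have : (shSec U ((g⁻¹ : G) : G ⧸ U))⁻¹ * g⁻¹ = (g * shSec U ((g⁻¹ : G) : G ⧸ U))⁻¹ := by group
  rw [this] at h
  exact (U.inv_mem_iff).1 h

/-- `u(g) = g s([g⁻¹]) ∈ U`, so that `g = u(g) s([g⁻¹])⁻¹`. -/
noncomputable def ecShU (g : G) : U := ⟨g * shSec U ((g⁻¹ : G) : G ⧸ U), ecShU_mem U g⟩

lemma ecShU_coe (g : G) : ((ecShU U g : U) : G) = g * shSec U ((g⁻¹ : G) : G ⧸ U) := rfl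

lemma ecShU_mul_inv (g : G) : ((ecShU U g : U) : G) * (shSec U ((g⁻¹ : G) : G ⧸ U))⁻¹ = g := by
  rw [ecShU_coe, mul_inv_cancel_right]

lemma ecSh_mk_inv_mul (u : U) (g : G) :
    ((((u : G) * g)⁻¹ : G) : G ⧸ U) = ((g⁻¹ : G) : G ⧸ U) := by
  rw [QuotientGroup.eq]
  have : (((u : G) * g)⁻¹)⁻¹ * g⁻¹ = (u : G) := by group
  rw [this]
  exact u.2

lemma ecShU_mul (u : U) (g : G) : ecShU U ((u : G) * g) = u * ecShU U g := by
  apply Subtype.ext
  rw [Subgroup.coe_mul, ecShU_coe, ecShU_coe, ecSh_mk_inv_mul, mul_assoc]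

lemma ecSh_mk_inv_shSec_inv (x : G ⧸ U) : ((((shSec U x)⁻¹)⁻¹ : G) : G ⧸ U) = x := by
  rw [inv_inv, mk_shSec]

lemma ecSh_mk_inv_shSec_inv_mul (x : G ⧸ U) (g : G) :
    (((((shSec U x)⁻¹ * g)⁻¹ : G)) : G ⧸ U) = g⁻¹ • x := by
  rw [mul_inv_rev, inv_inv]
  exact mk_mul_shSec U g⁻¹ x

lemma ecShU_shSec_inv_mul (x : G ⧸ U) (g : G) : ecShU U ((shSec U x)⁻¹ * g) = shW U x g := by
  apply Subtype.ext
  rw [ecShU_coe, shW_coe, ecSh_mk_inv_shSec_inv_mul]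

/-- The coordinate at the coset `x`: `φ ↦ φ (s x)⁻¹`. -/
noncomputable def ecShPi (x : G ⧸ U) : (ecShInd U.subtype 𝓤 X) →ₗ[k] X where
  toFun φ := ecShFun U.subtype 𝓤 X φ (shSec U x)⁻¹
  map_add' _ _ := rfl
  map_smul' _ _ := rfl

lemma ecShPi_apply (x : G ⧸ U) (φ : ecShInd U.subtype 𝓤 X) :
    ecShPi 𝓤 U X x φ = ecShFun U.subtype 𝓤 X φ (shSec U x)⁻¹ := rfl

/-- The values of a coinduced function from its coordinates. -/
lemma ecShFun_eq (φ : ecShInd U.subtype 𝓤 X) (g : G) :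
    ecShFun U.subtype 𝓤 X φ g = X.ρ (ecShU U g) (ecShPi 𝓤 U X ((g⁻¹ : G) : G ⧸ U) φ) := by
  rw [ecShPi_apply, ← ecShFun_equivariant]
  congr 1
  exact (ecShU_mul_inv U g).symm

lemma ecShPi_ρ (x : G ⧸ U) (g : G) (φ : ecShInd U.subtype 𝓤 X) :
    ecShPi 𝓤 U X x ((ecShInd U.subtype 𝓤 X).ρ g φ)
      = X.ρ (shW U x g) (ecShPi 𝓤 U X (g⁻¹ • x) φ) := by
  rw [ecShPi_apply, ecShFun_ρ, ecShFun_eq, ecShU_shSec_inv_mul, ecSh_mk_inv_shSec_inv_mul]

lemma ecShPi_ext {φ ψ : ecShInd U.subtype 𝓤 X}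
    (h : ∀ x, ecShPi 𝓤 U X x φ = ecShPi 𝓤 U X x ψ) : φ = ψ := by
  refine ecShFun_ext fun g => ?_
  rw [ecShFun_eq, ecShFun_eq, h]

/-! ### The element with given coordinates -/

variable {𝓤 U X}

lemma ecSh_finite_quotient (hU : 𝓤.IsOpen U) : Finite (G ⧸ U) := by
  obtain ⟨V, hV, hVU⟩ := hU
  have := 𝓤.finiteIndex V hV
  have : U.FiniteIndex := Subgroup.finiteIndex_of_le hVU
  exact Subgroup.finite_quotient_of_finiteIndex

/-- A common level `V ≤ U` fixing finitely many elements of a smooth `U`-module. -/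
lemma ecSh_exists_level (hU : 𝓤.IsOpen U) {X : Rep.{0} k ↥U} (hX : IsSmooth (𝓤.comap U.subtype) X)
    {ι : Type} [Finite ι] (F : ι → X) :
    ∃ V ∈ 𝓤.sets, V ≤ U ∧ ∀ (u : U), (u : G) ∈ V → ∀ i, X.ρ u (F i) = F i := by
  obtain ⟨V₀, hV₀, hV₀U⟩ := hU
  have key : ∃ V ∈ 𝓤.sets, ∀ i ∈ (Set.univ : Set ι), ∀ (u : U), (u : G) ∈ V → X.ρ u (F i) = F i := by
    refine 𝓤.coind_exists_le_of_finite Set.univ Set.finite_univ
      (fun i V => ∀ (u : U), (u : G) ∈ V → X.ρ u (F i) = F i) (fun i _ => ?_)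
      (fun i V V' hle h u hu => h u (hle hu))
    obtain ⟨_, ⟨V, hV, rfl⟩, h⟩ := hX (F i)
    exact ⟨V, hV, fun u hu => h u hu⟩
  obtain ⟨V₁, hV₁, h₁⟩ := key
  obtain ⟨W, hW, hWle⟩ := 𝓤.directed V₀ hV₀ V₁ hV₁
  exact ⟨W, hW, fun g hg => hV₀U (hWle hg).1, fun u hu i => h₁ i (Set.mem_univ i) u (hWle hu).2⟩

variable (U X) in
/-- The function with coordinates `F`. -/
noncomputable def ecShLiftFun (F : G ⧸ U → X) (g : G) : X :=
  X.ρ (ecShU U g) (F ((g⁻¹ : G) : G ⧸ U))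

lemma ecShLiftFun_mem (hU : 𝓤.IsOpen U) (hX : IsSmooth (𝓤.comap U.subtype) X) (F : G ⧸ U → X) :
    ecShLiftFun U X F ∈ coIndSub U.subtype 𝓤 X := by
  have := ecSh_finite_quotient hU
  obtain ⟨V, hV, hVU, hfix⟩ := ecSh_exists_level hU hX F
  have hVn : V.Normal := 𝓤.normal V hV
  refine ⟨fun u g => ?_, V, hV, fun g v hv => ?_⟩
  · show X.ρ (ecShU U ((u : G) * g)) (F ((((u : G) * g)⁻¹ : G) : G ⧸ U)) = X.ρ u (X.ρ (ecShU U g) _)
    rw [ecShU_mul, ecSh_mk_inv_mul, map_mul]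
    rfl
  · have hx : (((g * v)⁻¹ : G) : G ⧸ U) = ((g⁻¹ : G) : G ⧸ U) := by
      rw [QuotientGroup.eq]
      have : ((g * v)⁻¹)⁻¹ * g⁻¹ = g * v * g⁻¹ := by group
      rw [this]
      exact hVU (hVn.conj_mem v hv g)
    have hmem : (shSec U ((g⁻¹ : G) : G ⧸ U))⁻¹ * v * shSec U ((g⁻¹ : G) : G ⧸ U) ∈ V := by
      have := hVn.conj_mem v hv (shSec U ((g⁻¹ : G) : G ⧸ U))⁻¹
      rwa [inv_inv] at this
    have hu : ecShU U (g * v) = ecShU U g * ⟨_, hVU hmem⟩ := by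
      apply Subtype.ext
      rw [Subgroup.coe_mul, ecShU_coe, ecShU_coe, hx]
      simp only
      group
    show X.ρ (ecShU U (g * v)) (F (((g * v)⁻¹ : G) : G ⧸ U)) = X.ρ (ecShU U g) (F _)
    rw [hu, hx, map_mul]
    show X.ρ (ecShU U g) (X.ρ _ (F _)) = _
    rw [hfix _ hmem]

/-- The element of the coinduced module with coordinates `F`. -/
noncomputable def ecShLift (hU : 𝓤.IsOpen U) (hX : IsSmooth (𝓤.comap U.subtype) X)
    (F : G ⧸ U → X) : ecShInd U.subtype 𝓤 X :=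
  ecShMk U.subtype 𝓤 X (ecShLiftFun U X F) (ecShLiftFun_mem hU hX F)

lemma ecShPi_lift (hU : 𝓤.IsOpen U) (hX : IsSmooth (𝓤.comap U.subtype) X) (F : G ⧸ U → X)
    (x : G ⧸ U) : ecShPi 𝓤 U X x (ecShLift hU hX F) = F x := by
  rw [ecShPi_apply]
  show X.ρ (ecShU U (shSec U x)⁻¹) (F ((((shSec U x)⁻¹)⁻¹ : G) : G ⧸ U)) = F x
  rw [ecSh_mk_inv_shSec_inv]
  have : ecShU U (shSec U x)⁻¹ = 1 := by
    apply Subtype.ext
    rw [ecShU_coe, ecSh_mk_inv_shSec_inv, inv_mul_cancel]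
    rfl
  rw [this, map_one]
  rfl

/-- **Coordinates**: `coInd U.subtype 𝓤 X ≃ (G ⧸ U → X)`. -/
noncomputable def ecShCoord (hU : 𝓤.IsOpen U) (hX : IsSmooth (𝓤.comap U.subtype) X) :
    (ecShInd U.subtype 𝓤 X) ≃ₗ[k] (G ⧸ U → X) where
  toFun φ x := ecShPi 𝓤 U X x φ
  map_add' _ _ := rfl
  map_smul' _ _ := rfl
  invFun F := ecShLift hU hX F
  left_inv _ := ecShPi_ext 𝓤 U X fun x => ecShPi_lift hU hX _ x
  right_inv F := funext fun x => ecShPi_lift hU hX F x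

@[simp] lemma ecShCoord_apply (hU : 𝓤.IsOpen U) (hX : IsSmooth (𝓤.comap U.subtype) X)
    (φ : ecShInd U.subtype 𝓤 X) (x : G ⧸ U) :
    ecShCoord hU hX φ x = ecShPi 𝓤 U X x φ := rfl

end Coord

end Fermat.Agent.F4
end MergeWrap_S56_W2_EC_Sh_Coord

section MergeWrap_S56_W2_EC_Sh_Hom -- from S56/W2/EC/Sh/Hom.lean

/-!
# S56 / W2 / EC / Sh / Hom : Frobenius reciprocity for smooth coinduction (helper48)

`U ≤ G` open, `X` a smooth `k[U]`-module, `M = coInd U.subtype 𝓤 X`, `K` a 2-term complex of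
`k[G]`-modules.

* `ecShJ`    : `X → M`, `x ↦` the function supported on `U` with value `x` at `1`
  (`U`-equivariant);
* `ecSh_sum_ρ_J` : `φ = ∑_y s(y) • j (π_y φ)`;
* `ecShHom`  : `HH⁰(G, Hom(M, K)) ≃ HH⁰(U, Hom(X, K|_U))`   (SHom), `F ↦ F ∘ j`, i.e.
  `Hom_G(coInd X, ker d) = Hom_U(X, ker d)`.
-/

set_option autoImplicit false

open CategoryTheory groupCohomology

namespace Fermat.Agent.F4

variable {k G : Type} [CommRing k] [Group G]

/-! ### `HH⁰` of a `Hom` complex -/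

section HH0

variable {H : Type} [Group H] (N : Rep.{0} k H) (K : Cx k H)

/-- A linear map as an element of `Hom(N, K)⁰`. -/
def ecShToHom (f : N →ₗ[k] K.K0) : (homCx N K).K0 := f

/-- An element of `Hom(N, K)⁰` as a linear map. -/
def ecShOfHom (f : (homCx N K).K0) : N →ₗ[k] K.K0 := f

@[simp] lemma ecShOfHom_toHom (f : N →ₗ[k] K.K0) : ecShOfHom N K (ecShToHom N K f) = f := rfl

@[simp] lemma ecShToHom_ofHom (f : (homCx N K).K0) : ecShToHom N K (ecShOfHom N K f) = f := rfl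

lemma ecSh_mem_HH0_iff (f : (homCx N K).K0) :
    f ∈ HH0 (homCx N K) ↔
      (∀ (h : H) (n : N), ecShOfHom N K f (N.ρ h n) = K.K0.ρ h (ecShOfHom N K f n)) ∧
        ∀ n : N, K.d (ecShOfHom N K f n) = 0 := by
  rw [HH0, LinearMap.mem_ker, D0_apply, Prod.mk_eq_zero]
  constructor
  · rintro ⟨h1, h2⟩
    refine ⟨fun h n => ?_, fun n => ?_⟩
    · have := congrFun h1 h
      rw [δ0_apply, Pi.zero_apply, sub_eq_zero] at this
      have h3 := congrArg (fun u : N →ₗ[k] K.K0 => u (N.ρ h n)) this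
      simp only at h3
      rw [homRep_ρ_apply] at h3
      have h4 : N.ρ h⁻¹ (N.ρ h n) = n := by
        rw [← Module.End.mul_apply, ← map_mul, inv_mul_cancel, map_one, Module.End.one_apply]
      rw [h4] at h3
      exact h3.symm
    · exact congrArg (fun u : N →ₗ[k] K.K1 => u n) h2
  · rintro ⟨h1, h2⟩
    refine ⟨?_, LinearMap.ext fun n => h2 n⟩
    funext h
    rw [δ0_apply, Pi.zero_apply, sub_eq_zero]
    refine LinearMap.ext fun n => ?_
    rw [homRep_ρ_apply]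
    have := h1 h (N.ρ h⁻¹ n)
    have h4 : N.ρ h (N.ρ h⁻¹ n) = n := by
      rw [← Module.End.mul_apply, ← map_mul, mul_inv_cancel, map_one, Module.End.one_apply]
    rw [h4] at this
    exact this.symm

end HH0

/-! ### The embedding `j` and generation -/

section J

variable {𝓤 : Levels G} {U : Subgroup G} {X : Rep.{0} k ↥U}
  (hU : 𝓤.IsOpen U) (hX : IsSmooth (𝓤.comap U.subtype) X)

open Classical in
/-- `j x` : the coinduced function supported on `U` with value `x` at `1`. -/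
noncomputable def ecShJ : X →ₗ[k] (ecShInd U.subtype 𝓤 X) :=
  (ecShCoord hU hX).symm.toLinearMap ∘ₗ LinearMap.single k (fun _ : G ⧸ U => X) (shBase U)

open Classical in
lemma ecShPi_J (y : G ⧸ U) (x : X) :
    ecShPi 𝓤 U X y (ecShJ hU hX x) = if y = shBase U then x else 0 := by
  have h := congrFun ((ecShCoord hU hX).apply_symm_apply (Pi.single (shBase U) x)) y
  rw [ecShCoord_apply] at h
  show ecShPi 𝓤 U X y ((ecShCoord hU hX).symm (Pi.single (shBase U) x)) = _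
  rw [h, Pi.single_apply]

lemma ecSh_smul_eq_base_iff (g : G) (z : G ⧸ U) : g⁻¹ • z = shBase U ↔ z = g • shBase U := by
  rw [inv_smul_eq_iff]

open Classical in
lemma ecShPi_ρ_J (z : G ⧸ U) (g : G) (x : X) :
    ecShPi 𝓤 U X z ((ecShInd U.subtype 𝓤 X).ρ g (ecShJ hU hX x))
      = if z = g • shBase U then X.ρ (shW U z g) x else 0 := by
  rw [ecShPi_ρ, ecShPi_J]
  by_cases h : z = g • shBase U
  · rw [if_pos h, if_pos ((ecSh_smul_eq_base_iff g z).2 h)]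
  · rw [if_neg h, if_neg (fun h' => h ((ecSh_smul_eq_base_iff g z).1 h')), map_zero]

lemma ecShW_shSec (y : G ⧸ U) : shW U y (shSec U y) = 1 := by
  apply Subtype.ext
  rw [shW_coe, shSec_inv_smul, shSec_base, mul_one, inv_mul_cancel]
  rfl

/-- `j` is `U`-equivariant. -/
lemma ecShJ_ρ (u : U) (x : X) :
    ecShJ hU hX (X.ρ u x) = (ecShInd U.subtype 𝓤 X).ρ (u : G) (ecShJ hU hX x) := by
  classical
  refine ecShPi_ext 𝓤 U X fun z => ?_
  rw [ecShPi_ρ_J, ecShPi_J, smul_base_of_mem U u.2]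
  by_cases h : z = shBase U
  · rw [if_pos h, if_pos h, h, shW_base]
  · rw [if_neg h, if_neg h]

variable [Fintype (G ⧸ U)]

/-- **Generation**: `φ = ∑_y s(y) • j (π_y φ)`. -/
lemma ecSh_sum_ρ_J (φ : ecShInd U.subtype 𝓤 X) :
    ∑ y : G ⧸ U, (ecShInd U.subtype 𝓤 X).ρ (shSec U y) (ecShJ hU hX (ecShPi 𝓤 U X y φ)) = φ := by
  classical
  refine ecShPi_ext 𝓤 U X fun z => ?_
  rw [map_sum]
  rw [Finset.sum_eq_single z]
  · rw [ecShPi_ρ_J, if_pos (shSec_smul_base U z).symm, ecShW_shSec, map_one]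
    rfl
  · intro y _ hy
    rw [ecShPi_ρ_J, if_neg]
    rw [shSec_smul_base]
    exact fun h => hy h.symm
  · intro h
    exact absurd (Finset.mem_univ z) h

end J

/-! ### Frobenius reciprocity -/

section Frob

variable {𝓤 : Levels G} {U : Subgroup G} {X : Rep.{0} k ↥U}
  (hU : 𝓤.IsOpen U) (hX : IsSmooth (𝓤.comap U.subtype) X) (Y : Rep.{0} k G)

variable [Fintype (G ⧸ U)]

variable (𝓤 X) in
/-- The extension of `f : X → Y` to the coinduced module: `φ ↦ ∑_y s(y) • f (π_y φ)`. -/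
noncomputable def ecShExt (f : X →ₗ[k] Y) : (ecShInd U.subtype 𝓤 X) →ₗ[k] Y :=
  ∑ y : G ⧸ U, (Y.ρ (shSec U y)) ∘ₗ f ∘ₗ ecShPi 𝓤 U X y

lemma ecShExt_apply (f : X →ₗ[k] Y) (φ : ecShInd U.subtype 𝓤 X) :
    ecShExt 𝓤 X Y f φ = ∑ y : G ⧸ U, Y.ρ (shSec U y) (f (ecShPi 𝓤 U X y φ)) := by
  rw [ecShExt, LinearMap.sum_apply]
  rfl

/-- The extension of a `U`-equivariant map is `G`-equivariant. -/
lemma ecShExt_ρ (f : X →ₗ[k] Y) (hf : ∀ (u : U) (x : X), f (X.ρ u x) = Y.ρ (u : G) (f x))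
    (g : G) (φ : ecShInd U.subtype 𝓤 X) :
    ecShExt 𝓤 X Y f ((ecShInd U.subtype 𝓤 X).ρ g φ) = Y.ρ g (ecShExt 𝓤 X Y f φ) := by
  rw [ecShExt_apply, ecShExt_apply, map_sum]
  have h1 : ∀ y : G ⧸ U, Y.ρ (shSec U y) (f (ecShPi 𝓤 U X y ((ecShInd U.subtype 𝓤 X).ρ g φ)))
      = Y.ρ g (Y.ρ (shSec U (g⁻¹ • y)) (f (ecShPi 𝓤 U X (g⁻¹ • y) φ))) := by
    intro y
    rw [ecShPi_ρ, hf, ← Module.End.mul_apply, ← map_mul, shSec_mul_shW, map_mul,
      Module.End.mul_apply]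
  rw [Finset.sum_congr rfl fun y _ => h1 y]
  exact Fintype.sum_equiv (MulAction.toPerm g⁻¹) _ _ fun y => rfl

lemma ecShExt_J (f : X →ₗ[k] Y) (x : X) : ecShExt 𝓤 X Y f (ecShJ hU hX x) = f x := by
  classical
  rw [ecShExt_apply, Finset.sum_eq_single (shBase U)]
  · rw [ecShPi_J, if_pos rfl, shSec_base, map_one]
    rfl
  · intro y _ hy
    rw [ecShPi_J, if_neg hy, map_zero, map_zero]
  · intro h
    exact absurd (Finset.mem_univ _) h

/-- A `G`-equivariant map on the coinduced module is the extension of its restriction to `X`. -/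
lemma ecShExt_comp_J (F : (ecShInd U.subtype 𝓤 X) →ₗ[k] Y)
    (hF : ∀ (g : G) (φ : ecShInd U.subtype 𝓤 X), F ((ecShInd U.subtype 𝓤 X).ρ g φ) = Y.ρ g (F φ)) :
    ecShExt 𝓤 X Y (F ∘ₗ ecShJ hU hX) = F := by
  refine LinearMap.ext fun φ => ?_
  rw [ecShExt_apply]
  conv_rhs => rw [← ecSh_sum_ρ_J hU hX φ, map_sum]
  refine Finset.sum_congr rfl fun y _ => ?_
  rw [hF]
  rfl

end Frob

end Fermat.Agent.F4

namespace Fermat.Agent.F4

variable {k G : Type} [CommRing k] [Group G]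

section HomEquiv

variable {𝓤 : Levels G} {U : Subgroup G} {X : Rep.{0} k ↥U}
  (hU : 𝓤.IsOpen U) (hX : IsSmooth (𝓤.comap U.subtype) X) (K : Cx k G)

/-- The target of a map into `K|_U`, as a map into `K`. -/
def ecShResOut (f : X →ₗ[k] (K.res U.subtype).K0) : X →ₗ[k] K.K0 := f

/-- A map into `K`, as a map into `K|_U`. -/
def ecShResIn (f : X →ₗ[k] K.K0) : X →ₗ[k] (K.res U.subtype).K0 := f

lemma ecSh_res_ρ (u : U) (a : K.K0) : (K.res U.subtype).K0.ρ u a = K.K0.ρ (u : G) a := rfl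

lemma ecSh_res_d (a : K.K0) : (K.res U.subtype).d a = K.d a := rfl

lemma ecShHom_mem_fwd (F : (homCx (ecShInd U.subtype 𝓤 X) K).K0)
    (hF : F ∈ HH0 (homCx (ecShInd U.subtype 𝓤 X) K)) :
    ecShToHom X (K.res U.subtype) (ecShResIn K (ecShOfHom _ K F ∘ₗ ecShJ hU hX))
      ∈ HH0 (homCx X (K.res U.subtype)) := by
  obtain ⟨h1, h2⟩ := (ecSh_mem_HH0_iff _ K F).1 hF
  refine (ecSh_mem_HH0_iff X (K.res U.subtype) _).2 ⟨fun u x => ?_, fun x => ?_⟩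
  · show ecShOfHom _ K F (ecShJ hU hX (X.ρ u x)) = K.K0.ρ (u : G) (ecShOfHom _ K F (ecShJ hU hX x))
    rw [ecShJ_ρ, h1]
  · exact h2 _

variable [Fintype (G ⧸ U)]

lemma ecShHom_mem_bwd (f : (homCx X (K.res U.subtype)).K0)
    (hf : f ∈ HH0 (homCx X (K.res U.subtype))) :
    ecShToHom (ecShInd U.subtype 𝓤 X) K
        (ecShExt 𝓤 X K.K0 (ecShResOut K (ecShOfHom X (K.res U.subtype) f)))
      ∈ HH0 (homCx (ecShInd U.subtype 𝓤 X) K) := by
  obtain ⟨h1, h2⟩ := (ecSh_mem_HH0_iff X (K.res U.subtype) f).1 hf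
  refine (ecSh_mem_HH0_iff _ K _).2 ⟨fun g φ => ?_, fun φ => ?_⟩
  · exact ecShExt_ρ K.K0 _ (fun u x => h1 u x) g φ
  · show K.d (ecShExt 𝓤 X K.K0 _ φ) = 0
    rw [ecShExt_apply, map_sum]
    refine Finset.sum_eq_zero fun y _ => ?_
    rw [K.comm]
    have h3 : K.d (ecShOfHom X (K.res U.subtype) f (ecShPi 𝓤 U X y φ)) = 0 :=
      h2 (ecShPi 𝓤 U X y φ)
    show K.K1.ρ (shSec U y) (K.d (ecShOfHom X (K.res U.subtype) f (ecShPi 𝓤 U X y φ))) = 0
    rw [h3, map_zero]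

/-- **(SHom) Frobenius reciprocity**: `HH⁰(G, Hom(coInd X, K)) ≃ HH⁰(U, Hom(X, K|_U))`. -/
noncomputable def ecShHom :
    ↥(HH0 (homCx (ecShInd U.subtype 𝓤 X) K)) ≃ₗ[k] ↥(HH0 (homCx X (K.res U.subtype))) where
  toFun F := ⟨_, ecShHom_mem_fwd hU hX K F.1 F.2⟩
  map_add' _ _ := rfl
  map_smul' _ _ := rfl
  invFun f := ⟨_, ecShHom_mem_bwd K f.1 f.2⟩
  left_inv F := by
    obtain ⟨h1, -⟩ := (ecSh_mem_HH0_iff _ K F.1).1 F.2
    exact Subtype.ext (ecShExt_comp_J hU hX K.K0 (ecShOfHom _ K F.1) h1)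
  right_inv f := Subtype.ext (LinearMap.ext fun x =>
    ecShExt_J hU hX K.K0 (ecShResOut K (ecShOfHom X (K.res U.subtype) f.1)) x)

include hU hX in
lemma ecSh_finrank_HH0_hom :
    Module.finrank k ↥(HH0 (homCx (ecShInd U.subtype 𝓤 X) K))
      = Module.finrank k ↥(HH0 (homCx X (K.res U.subtype))) :=
  (ecShHom hU hX K).finrank_eq

end HomEquiv

end Fermat.Agent.F4

namespace Fermat.Agent.F4

variable {k G : Type} [CommRing k] [Group G]

/-- (SHom) in dimensions, without a chosen `Fintype` structure on `G ⧸ U`. -/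
theorem ecSh_finrank_HH0_hom_of_isOpen {𝓤 : Levels G} {U : Subgroup G} {X : Rep.{0} k ↥U}
    (hU : 𝓤.IsOpen U) (hX : IsSmooth (𝓤.comap U.subtype) X) (K : Cx k G) :
    Module.finrank k ↥(HH0 (homCx (ecShInd U.subtype 𝓤 X) K))
      = Module.finrank k ↥(HH0 (homCx X (K.res U.subtype))) := by
  have := ecSh_finite_quotient hU
  have _ : Fintype (G ⧸ U) := Fintype.ofFinite _
  exact ecSh_finrank_HH0_hom hU hX K

end Fermat.Agent.F4
end MergeWrap_S56_W2_EC_Sh_Hom
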